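import Fermat.Agent.F4.Glob.Fin.Defs

/-!
# F4 / GLOB / Fin / Galois (FB): finitely many smooth characters from finitely many layers

Owner: helper56.  For `V = F.fixingSubgroup` (`F` finite, stable, unramified outside `S`) and a
smooth character `χ ≠ 1` of `V`, trivial on `V ∩ W`, `W = F_W.fixingSubgroup`: the subgroup
`K = ker χ` of `Gal(ℚ̄/ℚ)` contains the open subgroup `(F ⊔ F_W).fixingSubgroup`, hence is closed and
`K = F'.fixingSubgroup` for `F' = fixedField K` (`InfiniteGalois.fixingSubgroup_fixedField`);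
`F ≤ F' ≤ F ⊔ F_W`, `F' ∈ pLayers p S F` (`IntermediateField.finrank_eq_fixingSubgroup_index`).
A character trivial on a subgroup of finite index is one of finitely many.
-/

set_option autoImplicit false

open CategoryTheory groupCohomology ExtCitation IntermediateField

namespace Fermat.Agent.F4Fin

open Fermat.Agent.F4

variable {p : ℕ} [Fact p.Prime]

/-- Finitely many characters of `V` are trivial on a given subgroup of finite index. -/
lemma finite_chars_of_finiteIndex {G : Type} [Group G] (V W : Subgroup G) [W.FiniteIndex] :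
    {χ : V →* Multiplicative (ZMod p) | ∀ v : V, (v : G) ∈ W → χ v = 1}.Finite := by
  have hfi : (W.subgroupOf V).FiniteIndex := inferInstance
  have hQ : Finite (V ⧸ W.subgroupOf V) := Subgroup.finite_quotient_of_finiteIndex
  have hZ : Finite (Multiplicative (ZMod p)) := inferInstance
  refine Set.Finite.of_injOn (f := fun χ : V →* Multiplicative (ZMod p) =>
    fun q : V ⧸ W.subgroupOf V => χ (Quotient.out q)) (t := Set.univ)
    (fun _ _ => Set.mem_univ _) ?_ Set.finite_univ
  intro χ hχ χ' hχ' h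
  refine MonoidHom.ext fun v => ?_
  have hmem : (Quotient.out (v : V ⧸ W.subgroupOf V))⁻¹ * v ∈ W.subgroupOf V := by
    rw [← QuotientGroup.eq]
    exact Quotient.out_eq' _
  have hv : v = Quotient.out (v : V ⧸ W.subgroupOf V) *
      ((Quotient.out (v : V ⧸ W.subgroupOf V))⁻¹ * v) := by group
  have h1 : χ (Quotient.out (v : V ⧸ W.subgroupOf V)) =
      χ' (Quotient.out (v : V ⧸ W.subgroupOf V)) := congrFun h (v : V ⧸ W.subgroupOf V)
  have e : ∀ ψ : V →* Multiplicative (ZMod p), (∀ v : V, (v : G) ∈ W → ψ v = 1) →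
      ψ v = ψ (Quotient.out (v : V ⧸ W.subgroupOf V)) := by
    intro ψ hψ
    have h2 := congrArg ψ hv
    rw [map_mul, hψ _ (Subgroup.mem_subgroupOf.mp hmem), mul_one] at h2
    exact h2
  rw [e χ hχ, e χ' hχ', h1]

/-- A smooth character of `F.fixingSubgroup` is trivial on `F'.fixingSubgroup` for `F' = F` or a
layer `F'` of degree `p` over `F`. -/
lemma exists_layer_of_smoothChar (S : Finset Nat.Primes) (F : IntermediateField ℚ Qb)
    (hF : F.IsUnramifiedOutside S)
    (χ : F.fixingSubgroup →* Multiplicative (ZMod p))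
    (hχ : χ ∈ smoothChars (levelsS S) p F.fixingSubgroup) :
    ∃ F' ∈ insert F (pLayers p S F), ∀ v : F.fixingSubgroup,
      (v : GQ) ∈ F'.fixingSubgroup → χ v = 1 := by
  have hGal := isGalois_Qbar
  by_cases h1 : χ = 1
  · exact ⟨F, Set.mem_insert _ _, fun v _ => by rw [h1]; rfl⟩
  obtain ⟨W, ⟨FW, hFW, -, rfl⟩, hW⟩ := hχ
  have hFfd : FiniteDimensional ℚ F := hF.1
  have hFWfd : FiniteDimensional ℚ FW := hFW.1
  have hsupfd : FiniteDimensional ℚ ↥(F ⊔ FW) := IntermediateField.finiteDimensional_sup F FW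
  obtain ⟨V, hVdef⟩ : ∃ V : Subgroup GQ, V = F.fixingSubgroup := ⟨_, rfl⟩
  subst hVdef
  set K : Subgroup GQ := χ.ker.map F.fixingSubgroup.subtype with hKdef
  have hKV : K ≤ F.fixingSubgroup := Subgroup.map_subtype_le _
  have hmemK : ∀ v : F.fixingSubgroup, (v : GQ) ∈ K ↔ χ v = 1 := by
    intro v
    rw [hKdef, Subgroup.mem_map]
    constructor
    · rintro ⟨k, hk, hkv⟩
      have : k = v := Subtype.ext hkv
      rw [← this]
      exact MonoidHom.mem_ker.mp hk
    · intro hv
      exact ⟨v, MonoidHom.mem_ker.mpr hv, rfl⟩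
  have hopen : (F ⊔ FW).fixingSubgroup ≤ K := by
    intro σ hσ
    rw [IntermediateField.fixingSubgroup_sup] at hσ
    exact (hmemK ⟨σ, hσ.1⟩).mpr (hW ⟨σ, hσ.1⟩ hσ.2)
  have hKopen : IsOpen (K : Set GQ) :=
    Subgroup.isOpen_mono hopen (IntermediateField.fixingSubgroup_isOpen (F ⊔ FW))
  have hKclosed : IsClosed (K : Set GQ) := Subgroup.isClosed_of_isOpen K hKopen
  set F' : IntermediateField ℚ Qb := IntermediateField.fixedField K with hF'def
  have hfix : F'.fixingSubgroup = K :=
    InfiniteGalois.fixingSubgroup_fixedField (⟨K, hKclosed⟩ : ClosedSubgroup GQ)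
  have hFF' : F ≤ F' := (IntermediateField.le_iff_le K F).mpr hKV
  have hF'le : F' ≤ F ⊔ FW := by
    have := IntermediateField.fixedField_antitone hopen
    rwa [InfiniteGalois.fixedField_fixingSubgroup] at this
  have hF'unr : F'.IsUnramifiedOutside S := (hF.sup hFW).of_le hF'le
  have hstable : ∀ σ ∈ F.fixingSubgroup, ∀ x ∈ F', σ x ∈ F' := by
    intro σ hσ x hx
    rw [hF'def, IntermediateField.mem_fixedField_iff] at hx ⊢
    intro k hk
    have hkV : k ∈ F.fixingSubgroup := hKV hk
    have hconj : σ⁻¹ * k * σ ∈ K := by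
      have hmem : σ⁻¹ * k * σ ∈ F.fixingSubgroup :=
        F.fixingSubgroup.mul_mem (F.fixingSubgroup.mul_mem (F.fixingSubgroup.inv_mem hσ) hkV) hσ
      rw [← Subtype.coe_mk (σ⁻¹ * k * σ) hmem, hmemK]
      have e : (⟨σ⁻¹ * k * σ, hmem⟩ : F.fixingSubgroup) =
          (⟨σ, hσ⟩ : F.fixingSubgroup)⁻¹ * ⟨k, hkV⟩ * ⟨σ, hσ⟩ := rfl
      rw [e, map_mul, map_mul, map_inv, (hmemK ⟨k, hkV⟩).mp hk, mul_one, inv_mul_cancel]
    have h2 := hx _ hconj
    have h3 : σ ((σ⁻¹ * k * σ) x) = k (σ x) := by
      show σ (σ⁻¹ (k (σ x))) = k (σ x)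
      exact AlgEquiv.apply_symm_apply σ _
    rw [← h3, h2]
  have hrange : χ.range = ⊤ := by
    have hcard : Nat.card (Multiplicative (ZMod p)) = p := by
      rw [Nat.card_eq_fintype_card]
      exact (Fintype.card_congr Multiplicative.ofAdd.symm).trans (ZMod.card p)
    have : Fact (Nat.card (Multiplicative (ZMod p))).Prime := ⟨by rw [hcard]; exact Fact.out⟩
    rcases Subgroup.eq_bot_or_eq_top_of_prime_card χ.range with h | h
    · exfalso
      apply h1
      refine MonoidHom.ext fun v => ?_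
      have : χ v ∈ χ.range := ⟨v, rfl⟩
      rw [h] at this
      exact Subgroup.mem_bot.mp this
    · exact h
  have hindex : K.index = p * F.fixingSubgroup.index := by
    rw [hKdef, Subgroup.index_map_subtype, Subgroup.index_ker, hrange, Nat.card_congr
      (Subgroup.topEquiv (G := Multiplicative (ZMod p))).toEquiv, Nat.card_eq_fintype_card]
    congr 1
    exact (Fintype.card_congr Multiplicative.ofAdd.symm).trans (ZMod.card p)
  have hrank : Module.finrank ℚ F' = p * Module.finrank ℚ F := by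
    rw [IntermediateField.finrank_eq_fixingSubgroup_index Qb F',
      IntermediateField.finrank_eq_fixingSubgroup_index Qb F, hfix, hindex]
  refine ⟨F', Set.mem_insert_of_mem _ ⟨hFF', hF'unr, hstable, hrank⟩, fun v hv => ?_⟩
  rw [hfix] at hv
  exact (hmemK v).mp hv

/-- **(FB)** -/
theorem finSmoothChars_of_finFields (S : Finset Nat.Primes) (h : FinFields p S) :
    FinSmoothChars (levelsS S) p := by
  rintro V ⟨F, hF, -, rfl⟩
  have hfin : (insert F (pLayers p S F)).Finite := (h F hF).insert F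
  have hsub : smoothChars (levelsS S) p F.fixingSubgroup ⊆
      ⋃ F' ∈ insert F (pLayers p S F),
        {χ : F.fixingSubgroup →* Multiplicative (ZMod p) |
          ∀ v : F.fixingSubgroup, (v : GQ) ∈ F'.fixingSubgroup → χ v = 1} := by
    intro χ hχ
    obtain ⟨F', hF', hχF'⟩ := exists_layer_of_smoothChar S F hF χ hχ
    exact Set.mem_biUnion hF' hχF'
  refine (Set.Finite.biUnion hfin fun F' hF' => ?_).subset hsub
  have hfd : FiniteDimensional ℚ F' := by
    rcases hF' with rfl | hF'
    · exact hF.1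
    · exact hF'.2.1.1
  have : F'.fixingSubgroup.FiniteIndex := finiteIndex_fixingSubgroup F' hfd
  exact finite_chars_of_finiteIndex _ _

end Fermat.Agent.F4Fin
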