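import Fermat.Agent.F4.Glob.Fin.Abstract
import Fermat.Agent.F4.Glob.Fin.Galois
import Fermat.Agent.Lib.KFin.Main

/-!
# F4 / GLOB / Fin / Main : `Hom(G_{F,S}, 𝔽_p)` is finite (the field `finH1` of `GlobalDatum`)

From helper29's `Fermat.Agent.KFin.kfin` (Kummer theory + `S`-units): every smooth character of a
level `V` is trivial on the fixing subgroup of ONE finite extension; then `Abstract.lean` (FA).
No hypothesis on `p` and `S`.
-/

set_option autoImplicit false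

open CategoryTheory groupCohomology ExtCitation IntermediateField

namespace Fermat.Agent.F4Fin

open Fermat.Agent.F4

variable {p : ℕ} [Fact p.Prime]

/-- Every level of `G_S` has finitely many smooth characters with values in `𝔽_p`. -/
theorem finSmoothChars_levelsS (S : Finset Nat.Primes) : FinSmoothChars (levelsS S) p := by
  rintro V ⟨F₀, hF₀, -, rfl⟩
  have hp : p.Prime := Fact.out
  have hF₀fd : FiniteDimensional ℚ F₀ := hF₀.1
  obtain ⟨F, hFfd, -, hF⟩ := Fermat.Agent.KFin.kfin p hp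
    (S.image (fun q : Nat.Primes => (q : ℕ))) F₀.fixingSubgroup ⟨F₀, hF₀.1, le_rfl⟩
  have hfi : F.fixingSubgroup.FiniteIndex := finiteIndex_fixingSubgroup F hFfd
  refine (finite_chars_of_finiteIndex (p := p) F₀.fixingSubgroup F.fixingSubgroup).subset ?_
  rintro χ ⟨W, ⟨F₁, hF₁, -, rfl⟩, hW⟩
  have hF₁fd : FiniteDimensional ℚ F₁ := hF₁.1
  have hmemN : ∀ v : F₀.fixingSubgroup,
      (v : GQ) ∈ χ.ker.map F₀.fixingSubgroup.subtype ↔ χ v = 1 := by
    intro v
    rw [Subgroup.mem_map]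
    constructor
    · rintro ⟨k, hk, hkv⟩
      have : k = v := Subtype.ext hkv
      rw [← this]
      exact MonoidHom.mem_ker.mp hk
    · intro hv
      exact ⟨v, MonoidHom.mem_ker.mpr hv, rfl⟩
  have hopen : (F₀ ⊔ F₁).fixingSubgroup ≤ χ.ker.map F₀.fixingSubgroup.subtype := by
    intro σ hσ
    rw [IntermediateField.fixingSubgroup_sup] at hσ
    exact (hmemN ⟨σ, hσ.1⟩).mpr (hW ⟨σ, hσ.1⟩ hσ.2)
  have hle := hF (χ.ker.map F₀.fixingSubgroup.subtype) (Subgroup.map_subtype_le _)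
    ⟨F₀ ⊔ F₁, IntermediateField.finiteDimensional_sup F₀ F₁, hopen⟩
    (fun σ hσ τ hτ => by
      have hmem : σ * τ * σ⁻¹ * τ⁻¹ ∈ F₀.fixingSubgroup :=
        F₀.fixingSubgroup.mul_mem (F₀.fixingSubgroup.mul_mem (F₀.fixingSubgroup.mul_mem hσ hτ)
          (F₀.fixingSubgroup.inv_mem hσ)) (F₀.fixingSubgroup.inv_mem hτ)
      rw [← Subtype.coe_mk (σ * τ * σ⁻¹ * τ⁻¹) hmem, hmemN]
      have e : (⟨σ * τ * σ⁻¹ * τ⁻¹, hmem⟩ : F₀.fixingSubgroup) =
          (⟨σ, hσ⟩ : F₀.fixingSubgroup) * ⟨τ, hτ⟩ * (⟨σ, hσ⟩ : F₀.fixingSubgroup)⁻¹ *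
            (⟨τ, hτ⟩ : F₀.fixingSubgroup)⁻¹ := rfl
      rw [e, map_mul, map_mul, map_mul, map_inv, map_inv]
      exact mul_inv_eq_one.mpr (by rw [mul_inv_eq_iff_eq_mul, mul_comm]))
    (fun σ hσ => by
      have hmem : σ ^ p ∈ F₀.fixingSubgroup := F₀.fixingSubgroup.pow_mem hσ p
      rw [← Subtype.coe_mk (σ ^ p) hmem, hmemN]
      have e : (⟨σ ^ p, hmem⟩ : F₀.fixingSubgroup) = (⟨σ, hσ⟩ : F₀.fixingSubgroup) ^ p := rfl
      rw [e, map_pow]
      have h1 : ∀ a : Multiplicative (ZMod p), a ^ p = 1 := by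
        intro a
        have : (p : ℕ) • (Multiplicative.toAdd a) = 0 := by
          rw [nsmul_eq_mul, ZMod.natCast_self, zero_mul]
        exact congrArg Multiplicative.ofAdd this
      exact h1 _)
    (fun q hq hqS A hA => by
      have hqS' : (⟨q, hq⟩ : Nat.Primes) ∉ S := by
        intro h
        exact hqS (Finset.mem_image.mpr ⟨⟨q, hq⟩, h, rfl⟩)
      intro σ hσ
      apply hopen
      rw [IntermediateField.fixingSubgroup_sup]
      exact ⟨hF₀.2 ⟨q, hq⟩ hqS' A hA hσ, hF₁.2 ⟨q, hq⟩ hqS' A hA hσ⟩)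
  intro v hv
  exact (hmemN v).mp (hle hv)

/-- Smooth `H¹` of a finite smooth `𝔽_p[G_S]`-module is finite. -/
theorem finite_H1sm_levelsS (S : Finset Nat.Primes)
    (N : Rep.{0} (ZMod p) GQ) (hN : IsSmooth (levelsS S) N) (hfin : Module.Finite (ZMod p) N) :
    Module.Finite (ZMod p) (H1sm (levelsS S) N) :=
  finite_H1sm_of_finSmoothChars (levelsS S) (finSmoothChars_levelsS S) N hN hfin

/-- **The field `finH1` of `GlobalDatum`.** -/
theorem finH1 (S : Finset Nat.Primes) (U : Subgroup GQ) (hU : (levelsS S).IsOpen U) :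
    Module.Finite (ZMod p) (H1sm (levelsS S) (permRep (ZMod p) U)) :=
  finite_H1sm_levelsS S _ (permRep_smooth _ hU) (permRep_finite _ hU)

end Fermat.Agent.F4Fin
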