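import Fermat.Agent.F4.Glob.Fin.Defs

/-!
# F4 / GLOB / Fin / Abstract (FA): finiteness of smooth `H¹` from finiteness of smooth characters

Owner: helper56.  A smooth 1-cocycle `z : G → N` restricted to a level `V` acting trivially on `N`
is a smooth homomorphism `V → N`; `z` is determined by it and by its values on representatives of
`G / V`.
-/

set_option autoImplicit false

open CategoryTheory groupCohomology

namespace Fermat.Agent.F4Fin

open Fermat.Agent.F4

variable {p : ℕ} [Fact p.Prime] {G : Type} [Group G]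

/-- The smooth homomorphisms `V → N` (as functions). -/
def smoothHoms (𝓤 : Levels G) (N : Rep.{0} (ZMod p) G) (V : Subgroup G) : Set (V → N) :=
  {r | (∀ v v' : V, r (v * v') = r v + r v') ∧ ∃ W ∈ 𝓤.sets, ∀ v : V, (v : G) ∈ W → r v = 0}

/-- The character `φ ∘ r` of a smooth homomorphism `r : V → N` and a linear form `φ` on `N`. -/
noncomputable def smoothHomChar {𝓤 : Levels G} {N : Rep.{0} (ZMod p) G} {V : Subgroup G}
    (r : smoothHoms 𝓤 N V) (φ : N →ₗ[ZMod p] ZMod p) : V →* Multiplicative (ZMod p) where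
  toFun v := Multiplicative.ofAdd (φ (r.1 v))
  map_one' := by
    have h := r.2.1 1 1
    rw [mul_one] at h
    have h0 : r.1 1 = 0 := by
      have : r.1 1 + 0 = r.1 1 + r.1 1 := by rw [add_zero]; exact h
      exact (add_left_cancel this).symm
    rw [h0, map_zero]
    rfl
  map_mul' v v' := by
    rw [r.2.1 v v', map_add]
    rfl

lemma smoothHomChar_mem {𝓤 : Levels G} {N : Rep.{0} (ZMod p) G} {V : Subgroup G}
    (r : smoothHoms 𝓤 N V) (φ : N →ₗ[ZMod p] ZMod p) :
    smoothHomChar r φ ∈ smoothChars 𝓤 p V := by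
  obtain ⟨W, hW, hr⟩ := r.2.2
  refine ⟨W, hW, fun v hv => ?_⟩
  show Multiplicative.ofAdd (φ (r.1 v)) = 1
  rw [hr v hv, map_zero]
  rfl

/-- Finitely many smooth homomorphisms `V → N`. -/
lemma finite_smoothHoms (𝓤 : Levels G) (h : FinSmoothChars 𝓤 p) (N : Rep.{0} (ZMod p) G)
    [Module.Finite (ZMod p) N] (V : Subgroup G) (hV : V ∈ 𝓤.sets) :
    Finite (smoothHoms 𝓤 N V) := by
  have hNfin : Finite N := Module.finite_of_finite (ZMod p)
  have hDual : Finite (N →ₗ[ZMod p] ZMod p) :=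
    Finite.of_injective (fun f : N →ₗ[ZMod p] ZMod p => (f : N → ZMod p)) DFunLike.coe_injective
  have hC : Finite (smoothChars 𝓤 p V) := (h V hV).to_subtype
  let Φ : smoothHoms 𝓤 N V → ((N →ₗ[ZMod p] ZMod p) → smoothChars 𝓤 p V) :=
    fun r φ => ⟨smoothHomChar r φ, smoothHomChar_mem r φ⟩
  refine Finite.of_injective Φ fun r r' hrr' => ?_
  refine Subtype.ext (funext fun v => ?_)
  rw [← sub_eq_zero]
  refine (Module.forall_dual_apply_eq_zero_iff (ZMod p) _).mp fun φ => ?_
  have h1 := congrArg (fun F => ((F φ : smoothChars 𝓤 p V) : V →* Multiplicative (ZMod p)) v) hrr'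
  have h2 : Multiplicative.ofAdd (φ (r.1 v)) = Multiplicative.ofAdd (φ (r'.1 v)) := h1
  have h3 : φ (r.1 v) = φ (r'.1 v) := Multiplicative.ofAdd.injective h2
  rw [map_sub, h3, sub_self]

/-- **(FA)** -/
theorem finite_H1sm_of_finSmoothChars (𝓤 : Levels G) (h : FinSmoothChars 𝓤 p)
    (N : Rep.{0} (ZMod p) G) (hN : IsSmooth 𝓤 N) (hfin : Module.Finite (ZMod p) N) :
    Module.Finite (ZMod p) (H1sm 𝓤 N) := by
  obtain ⟨V, hV, hVN⟩ := exists_level_fixing 𝓤 N hN
  have hNfin : Finite N := Module.finite_of_finite (ZMod p)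
  have hVfi : V.FiniteIndex := 𝓤.finiteIndex V hV
  have hQ : Finite (G ⧸ V) := Subgroup.finite_quotient_of_finiteIndex
  have hR : Finite (smoothHoms 𝓤 N V) := finite_smoothHoms 𝓤 h N V hV
  -- cocycle identities
  have hcoc : ∀ z : ↥(Z1 𝓤 N), ∀ g g' : G, z.1 (g * g') = z.1 g + N.ρ g (z.1 g') := by
    intro z g g'
    have hz : z.1 ∈ cocycles₁ N := z.2.1
    have := (mem_cocycles₁_iff z.1).mp hz g g'
    rw [this, add_comm]
  have hone : ∀ z : ↥(Z1 𝓤 N), z.1 1 = 0 := by
    intro z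
    have h1 := hcoc z 1 1
    rw [mul_one, map_one] at h1
    have : z.1 1 + 0 = z.1 1 + z.1 1 := by rw [add_zero]; exact h1
    exact (add_left_cancel this).symm
  -- the restriction to `V`
  have hres : ∀ z : ↥(Z1 𝓤 N), (fun v : V => z.1 (v : G)) ∈ smoothHoms 𝓤 N V := by
    intro z
    refine ⟨fun v v' => ?_, ?_⟩
    · show z.1 ((v : G) * (v' : G)) = _
      rw [hcoc z, hVN _ v.2]
    · obtain ⟨W, hW, hz⟩ := z.2.2
      refine ⟨W, hW, fun v hv => ?_⟩
      have := hz 1 (v : G) hv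
      rw [one_mul] at this
      show z.1 (v : G) = 0
      rw [this, hone z]
  let Φ : ↥(Z1 𝓤 N) → (G ⧸ V → N) × smoothHoms 𝓤 N V :=
    fun z => (fun q => z.1 (Quotient.out q), ⟨fun v : V => z.1 (v : G), hres z⟩)
  have hZ : Finite ↥(Z1 𝓤 N) := by
    refine Finite.of_injective Φ fun z z' hzz' => ?_
    have h1 : ∀ q : G ⧸ V, z.1 (Quotient.out q) = z'.1 (Quotient.out q) := fun q =>
      congrFun (congrArg Prod.fst hzz') q
    have h2 : ∀ v : V, z.1 (v : G) = z'.1 (v : G) := fun v =>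
      congrFun (congrArg (fun x => (x.2 : V → N)) hzz') v
    refine Subtype.ext (funext fun g => ?_)
    have hmem : (Quotient.out (g : G ⧸ V))⁻¹ * g ∈ V := by
      rw [← QuotientGroup.eq]
      exact Quotient.out_eq' _
    have hg : g = Quotient.out (g : G ⧸ V) * ((Quotient.out (g : G ⧸ V))⁻¹ * g) := by group
    rw [hg, hcoc z, hcoc z', h1, h2 ⟨_, hmem⟩]
  have hH : Finite (H1sm 𝓤 N) := Quotient.finite _
  exact Module.Finite.of_finite

end Fermat.Agent.F4Fin
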