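import Fermat.Agent.F4.Datum

/-!
# F4 / GLOB / Fin : finiteness of `Hom(G_{F,S}, 𝔽_p)` — definitions and interfaces

Owner: helper56 (seat FIN).  Goal (`F4/Glob/Fin/Main.lean`): the field `finH1` of `GlobalDatum`,

    ∀ U open in `levelsS S`, `Module.Finite (ZMod p) (H1sm (levelsS S) (permRep (ZMod p) U))`.

Route (Kummer theory; `p ∈ S`):

    finH1  ⟸ FinSmoothChars (levelsS S) p                  (FA, abstract: `Abstract.lean`)
           ⟸ FinFields p S                                 (FB, Galois theory: `Galois.lean`)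
           ⟸ KummerGen p S + KummerOrd p S + FinKummerGroup (ASM: `Assembly.lean`)
    KummerGen      : a cyclic layer `F'/F` of degree `p` lies in `F(ζ_p, α)`, `α ^ p ∈ F(ζ_p)`
    KummerOrd      : if `L(α)` (`α ^ p = x ∈ L`) is unramified outside `S` then `p ∣ ord_w x` for
                     all primes `w` of `L` not above `S`
    FinKummerGroup : `{x ∈ Lˣ | p ∣ ord_w x for all w ∉ T} / (Lˣ)^p` is finite (`T` finite)
-/

set_option autoImplicit false

open CategoryTheory groupCohomology ExtCitation NumberField IsDedekindDomain IntermediateField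
open scoped WithZero

namespace Fermat.Agent.F4Fin

open Fermat.Agent.F4

/-- The algebraic closure of `ℚ`. -/
abbrev Qb : Type := AlgebraicClosure ℚ

/-! ### FA: abstract part -/

/-- The smooth characters `V → 𝔽_p` of a subgroup `V` (trivial on `V ∩ W` for some level `W`). -/
def smoothChars {G : Type} [Group G] (𝓤 : Levels G) (p : ℕ) (V : Subgroup G) :
    Set (V →* Multiplicative (ZMod p)) :=
  {χ | ∃ W ∈ 𝓤.sets, ∀ v : V, (v : G) ∈ W → χ v = 1}

/-- Every level has finitely many smooth characters with values in `𝔽_p`. -/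
def FinSmoothChars {G : Type} [Group G] (𝓤 : Levels G) (p : ℕ) : Prop :=
  ∀ V ∈ 𝓤.sets, (smoothChars 𝓤 p V).Finite

/-! ### FB: Galois theory -/

/-- The layers of degree `p` over `F`, Galois over `F` and unramified outside `S`. -/
def pLayers (p : ℕ) (S : Finset Nat.Primes) (F : IntermediateField ℚ Qb) :
    Set (IntermediateField ℚ Qb) :=
  {F' | F ≤ F' ∧ F'.IsUnramifiedOutside S ∧ (∀ σ ∈ F.fixingSubgroup, ∀ x ∈ F', σ x ∈ F') ∧
    Module.finrank ℚ F' = p * Module.finrank ℚ F}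

/-- Finitely many layers of degree `p` unramified outside `S`. -/
def FinFields (p : ℕ) (S : Finset Nat.Primes) : Prop :=
  ∀ F : IntermediateField ℚ Qb, F.IsUnramifiedOutside S → (pLayers p S F).Finite

/-! ### FC: Kummer theory -/

/-- **(KUM)** every layer of degree `p` over `F` (unramified outside `S ∋ p`) is contained in a
Kummer extension `F(ζ, α)`, `α ^ p ∈ F(ζ)`, unramified outside `S`. -/
def KummerGen (p : ℕ) [Fact p.Prime] (S : Finset Nat.Primes) : Prop :=
  pPrime p ∈ S →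
  ∀ ζ : Qb, IsPrimitiveRoot ζ p → ∀ F : IntermediateField ℚ Qb, F.IsUnramifiedOutside S →
    ∀ F' ∈ pLayers p S F, ∃ α : Qb, α ≠ 0 ∧ α ^ p ∈ F ⊔ ℚ⟮ζ⟯ ∧ F' ≤ F ⊔ ℚ⟮ζ⟯ ⊔ ℚ⟮α⟯ ∧
      (F ⊔ ℚ⟮ζ⟯ ⊔ ℚ⟮α⟯).IsUnramifiedOutside S

/-- **(ORD)** if `L(α)`, `α ^ p = x ∈ L`, is unramified outside `S`, then `p` divides the order of
`x` at every prime of `L` not above `S`. -/
def KummerOrd (p : ℕ) (S : Finset Nat.Primes) : Prop :=
  ∀ (L : IntermediateField ℚ Qb) [NumberField L] (α : Qb) (x : L), x ≠ 0 → (x : Qb) = α ^ p →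
    (L ⊔ ℚ⟮α⟯).IsUnramifiedOutside S →
    ∀ w : HeightOneSpectrum (𝓞 L), (∀ q ∈ S, (((q : ℕ) : ℕ) : 𝓞 L) ∉ w.asIdeal) →
      ∃ y : ℤᵐ⁰, w.valuation L x = y ^ p

/-- The elements of `Lˣ` whose order at every prime outside `T` is divisible by `p`. -/
def kummerGroup (p : ℕ) (L : Type) [Field L] [NumberField L]
    (T : Set (HeightOneSpectrum (𝓞 L))) : Subgroup Lˣ where
  carrier := {x | ∀ w : HeightOneSpectrum (𝓞 L), w ∉ T →
    ∃ y : ℤᵐ⁰, w.valuation L (x : L) = y ^ p}
  one_mem' := fun w _ => ⟨1, by simp⟩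
  mul_mem' := by
    intro a b ha hb w hw
    obtain ⟨y, hy⟩ := ha w hw
    obtain ⟨z, hz⟩ := hb w hw
    exact ⟨y * z, by rw [Units.val_mul, map_mul, hy, hz, mul_pow]⟩
  inv_mem' := by
    intro a ha w hw
    obtain ⟨y, hy⟩ := ha w hw
    exact ⟨y⁻¹, by rw [Units.val_inv_eq_inv_val, map_inv₀, hy, inv_pow]⟩

/-- **(FINX)** the `p`-th powers have finite index in `kummerGroup p L T` for `T` finite. -/
def FinKummerGroup : Prop :=
  ∀ (p : ℕ) (L : Type) [Field L] [NumberField L] (T : Set (HeightOneSpectrum (𝓞 L))),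
    p.Prime → T.Finite →
    ((powMonoidHom p : Lˣ →* Lˣ).range.subgroupOf (kummerGroup p L T)).FiniteIndex

end Fermat.Agent.F4Fin
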